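import Fermat.Agent.Periods.Parabolic
import Fermat.Agent.Genus.Cosets

set_option autoImplicit false

open CongruenceSubgroup ModularCurve ModularCurve.Period
open scoped MatrixGroups

namespace FLTAgent.Periods

variable {N : ℕ} [NeZero N]

/-- The space of parabolic homomorphisms has dimension at most `2 g`. -/
theorem finrank_parabolicHoms_le (k : Type*) [Field k] [CharZero k] :
    (Module.finrank k (parabolicHoms k (Gamma0 N) k) : ℚ) ≤ 2 * genusFormula N := by
  have h := finrank_parabolicHoms_bound N k
  have hS := Genus.card_fixedBy_S (N := N)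
  have hU := Genus.card_fixedBy_U (N := N)
  have hT := Genus.card_orbits_T (N := N)
  have hX := Genus.card_cosetSpace (N := N)
  simp only [Genus.CosetSpace, MulAction.fixedBy, Set.coe_setOf] at hS hU hT hX
  simp only [eltU] at h
  rw [hX, hS, hU, hT] at h
  have h' : ((6 * Module.finrank k (parabolicHoms k (Gamma0 N) k) + 3 * nuTwo N + 4 * nuThree N
      + 6 * cuspCount N : ℕ) : ℚ) ≤ ((dedekindPsi N + 12 : ℕ) : ℚ) := Nat.cast_le.mpr h
  push_cast at h'
  unfold genusFormula
  linarith

/-- Twice the dimension of `S₂` is at most `2 g`, by injectivity of the period map. -/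
theorem finrank_cuspForm_le [FiniteDimensional ℂ (CuspForm (Gamma0 N) 2)] :
    (Module.finrank ℂ (CuspForm (Gamma0 N) 2) : ℚ) ≤ genusFormula N := by
  have h1 : Module.finrank ℂ (LinearMap.range (periodHomPair N))
      ≤ Module.finrank ℂ (parabolicHoms ℂ (Gamma0 N) ℂ) :=
    Submodule.finrank_mono range_periodHomPair_le
  rw [LinearMap.finrank_range_of_inj (periodHomPair_injective (N := N)), Module.finrank_prod] at h1
  have h2 := finrank_parabolicHoms_le (N := N) ℂ
  have h3 : ((Module.finrank ℂ (CuspForm (Gamma0 N) 2) : ℚ) + Module.finrank ℂ (CuspForm (Gamma0 N) 2))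
      ≤ Module.finrank ℂ (parabolicHoms ℂ (Gamma0 N) ℂ) := by exact_mod_cast h1
  linarith

theorem finiteDimensional_cuspForm : FiniteDimensional ℂ (CuspForm (Gamma0 N) 2) :=
  Module.Finite.of_injective
    ((LinearMap.codRestrict (parabolicHoms ℂ (Gamma0 N) ℂ) (periodHomPair N)
      fun x => range_periodHomPair_le ⟨x, rfl⟩) ∘ₗ LinearMap.inl ℂ _ _)
    (by
      intro a b hab
      have : periodHomPair N (a, 0) = periodHomPair N (b, 0) := congrArg Subtype.val hab
      exact congrArg Prod.fst (periodHomPair_injective this))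

theorem finrank_cuspForm_le_genusFormula :
    (Module.finrank ℂ (CuspForm (Gamma0 N) 2) : ℚ) ≤ genusFormula N :=
  haveI := finiteDimensional_cuspForm (N := N)
  finrank_cuspForm_le

/-- Eichler–Shimura, given the dimension formula for `S₂`. -/
theorem eichlerShimura_of_dim
    (hdim : genusFormula N ≤ (Module.finrank ℂ (CuspForm (Gamma0 N) 2) : ℚ)) :
    Function.Injective (periodHomPair N)
      ∧ LinearMap.range (periodHomPair N) = parabolicHoms ℂ (Gamma0 N) ℂ := by
  haveI := finiteDimensional_cuspForm (N := N)
  refine ⟨periodHomPair_injective (N := N), Submodule.eq_of_le_of_finrank_le range_periodHomPair_le ?_⟩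
  rw [LinearMap.finrank_range_of_inj (periodHomPair_injective (N := N)), Module.finrank_prod]
  have h2 := finrank_parabolicHoms_le (N := N) ℂ
  have : (Module.finrank ℂ (parabolicHoms ℂ (Gamma0 N) ℂ) : ℚ)
      ≤ ((Module.finrank ℂ (CuspForm (Gamma0 N) 2) + Module.finrank ℂ (CuspForm (Gamma0 N) 2) : ℕ) : ℚ) := by
    push_cast; linarith
  exact_mod_cast this

end FLTAgent.Periods
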