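import Fermat.Agent.Periods.Injective
import Fermat.Prelude.Def_ModularCurve_GenusNumerics

set_option autoImplicit false

open CongruenceSubgroup ModularCurve ModularCurve.Period
open scoped MatrixGroups

namespace FLTAgent.Periods

variable {N : ℕ} [NeZero N]

local notation "G2" => SL(2, ℤ)
local notation "XX" => SL(2, ℤ) ⧸ Gamma0 N

/-- `U = S T`, of order six. -/
def eltU : SL(2, ℤ) := ModularGroup.S * ModularGroup.T

lemma S_mul_S : ModularGroup.S * ModularGroup.S = (-1 : G2) := by decide

lemma eltU_pow_three : eltU * (eltU * eltU) = (-1 : G2) := by decide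

lemma neg_one_mem : (-1 : G2) ∈ Gamma0 N := Gamma0_mem.mpr (by simp)

lemma neg_one_smul_coset (x : XX) : (-1 : G2) • x = x := by
  induction x using QuotientGroup.induction_on with | H g =>
  rw [MulAction.Quotient.smul_mk, QuotientGroup.eq]
  convert neg_one_mem (N := N) using 1
  apply Subtype.ext
  simp

lemma S_smul_S_smul (x : XX) : ModularGroup.S • ModularGroup.S • x = x := by
  rw [← mul_smul, S_mul_S, neg_one_smul_coset]

lemma eltU_smul_three (x : XX) : eltU • eltU • eltU • x = x := by
  rw [← mul_smul, ← mul_smul, mul_assoc, eltU_pow_three, neg_one_smul_coset]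

lemma closure_S_eltU : Subgroup.closure ({ModularGroup.S, eltU} : Set G2) = ⊤ := by
  rw [eq_top_iff, ← SpecialLinearGroup.SL2Z_generators, Subgroup.closure_le]
  rintro g (rfl | rfl)
  · exact Subgroup.subset_closure (by simp)
  · have : ModularGroup.T = ModularGroup.S⁻¹ * eltU := by simp [eltU]
    rw [this]
    exact mul_mem (inv_mem (Subgroup.subset_closure (by simp))) (Subgroup.subset_closure (by simp))

lemma T_pow_level_smul (x : XX) : ModularGroup.T ^ N • x = x := by
  induction x using QuotientGroup.induction_on with | H g =>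
  rw [MulAction.Quotient.smul_mk, QuotientGroup.eq]
  have h := T_pow_conj_mem (N := N) g⁻¹
  rw [inv_inv, zpow_natCast] at h
  have := inv_mem h
  convert this using 1
  simp only [mul_inv_rev, inv_inv, smul_eq_mul]
  group

lemma stab_mem (g : G2) (x : XX) : (g • x).out⁻¹ * g * x.out ∈ Gamma0 N := by
  rw [mul_assoc, ← QuotientGroup.eq, QuotientGroup.out_eq']
  conv_lhs => rw [← QuotientGroup.out_eq' x, MulAction.Quotient.smul_mk, smul_eq_mul]

variable {A : Type*} [AddCommGroup A]

/-- Shapiro cocycle of a homomorphism on `Γ₀(N)`. -/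
noncomputable def shapiro (φ : Additive (Gamma0 N) →+ A) (g : G2) (x : XX) : A :=
  φ (Additive.ofMul ⟨(g • x).out⁻¹ * g * x.out, stab_mem g x⟩)

lemma shapiro_mul (φ : Additive (Gamma0 N) →+ A) (g h : G2) (x : XX) :
    shapiro φ (g * h) x = shapiro φ g (h • x) + shapiro φ h x := by
  rw [shapiro, shapiro, shapiro, ← map_add, ← ofMul_mul]
  congr 2
  apply Subtype.ext
  simp only [mul_smul, MulMemClass.coe_mul]
  group

lemma shapiro_one (φ : Additive (Gamma0 N) →+ A) (x : XX) : shapiro φ 1 x = 0 := by
  have := shapiro_mul φ 1 1 x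
  simpa using this

lemma shapiro_eq_zero_of_parabolic {φ : Additive (Gamma0 N) →+ A}
    (hφ : IsParabolicHom (Gamma0 N) φ) (g : G2) (x : XX) (hx : g • x = x)
    (hg : (g : Matrix (Fin 2) (Fin 2) ℤ).trace ^ 2 = 4) : shapiro φ g x = 0 := by
  refine hφ _ ?_
  rw [← hg]
  congr 1
  simp only [hx, Matrix.SpecialLinearGroup.coe_mul]
  rw [Matrix.trace_mul_comm, ← mul_assoc, ← Matrix.SpecialLinearGroup.coe_mul, mul_inv_cancel]
  simp

lemma shapiro_T_pow (φ : Additive (Gamma0 N) →+ A) (n : ℕ) (x : XX) :
    shapiro φ (ModularGroup.T ^ n) x =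
      ∑ i ∈ Finset.range n, shapiro φ ModularGroup.T (ModularGroup.T ^ i • x) := by
  induction n with
  | zero => simp [shapiro_one]
  | succ n ih => rw [pow_succ', shapiro_mul, Finset.sum_range_succ, ih, add_comm]

section Field

variable (N) (k : Type*) [Field k]

/-- pull-back by the action of `g`. -/
noncomputable def pull (g : G2) : (XX → k) →ₗ[k] (XX → k) :=
  LinearMap.funLeft k k fun x => g • x

variable {N k}

lemma pull_apply (g : G2) (f : XX → k) (x : XX) : pull N k g f x = f (g • x) := rfl

omit [NeZero N] in
lemma trace_pull [Fintype XX] [DecidableEq XX] (g : G2) :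
    LinearMap.trace k _ (pull N k g) = (Nat.card {x : XX // g • x = x} : k) := by
  rw [LinearMap.trace_eq_matrix_trace k (Pi.basisFun k XX), Matrix.trace]
  simp only [Matrix.diag_apply, LinearMap.toMatrix_apply, Pi.basisFun_repr, Pi.basisFun_apply,
    pull, LinearMap.funLeft_apply, Pi.single_apply]
  rw [Nat.card_eq_fintype_card, Fintype.card_subtype, Finset.sum_boole]

variable (N k)

/-- the pairs `(a, b)` -/
noncomputable def pairsA : Submodule k (XX → k) :=
  LinearMap.ker (LinearMap.id + pull N k ModularGroup.S)

noncomputable def pairsB : Submodule k (XX → k) :=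
  LinearMap.ker (LinearMap.id + pull N k eltU + pull N k eltU ∘ₗ pull N k eltU)

noncomputable def atT : (pairsA N k × pairsB N k) →ₗ[k] (XX → k) :=
  LinearMap.coprod (pull N k eltU ∘ₗ (pairsA N k).subtype) (pairsB N k).subtype

noncomputable def avg : (XX → k) →ₗ[k] (XX → k) :=
  ∑ i ∈ Finset.range N, pull N k (ModularGroup.T ^ i)

variable {N k}

lemma mem_pairsA {a : XX → k} :
    a ∈ pairsA N k ↔ ∀ x, a x + a (ModularGroup.S • x) = 0 := by
  simp [pairsA, funext_iff, pull_apply]

lemma mem_pairsB {b : XX → k} :
    b ∈ pairsB N k ↔ ∀ x, b x + b (eltU • x) + b (eltU • eltU • x) = 0 := by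
  simp [pairsB, funext_iff, pull_apply]

variable [CharZero k]

lemma two_finrank_pairsA :
    2 * Module.finrank k (pairsA N k) + Nat.card {x : XX // ModularGroup.S • x = x}
      = Nat.card XX := by
  classical
  haveI : Finite XX := Subgroup.finite_quotient_of_finiteIndex
  letI := Fintype.ofFinite XX
  set σ := pull N k ModularGroup.S
  have hσ : σ ∘ₗ σ = LinearMap.id := by
    ext f x; simp [σ, pull_apply, S_smul_S_smul]
  have hp : LinearMap.IsProj (pairsA N k) ((2⁻¹ : k) • (LinearMap.id - σ)) := by
    constructor
    · intro f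
      rw [mem_pairsA]
      intro x
      simp [σ, pull_apply, S_smul_S_smul]
      ring
    · intro f hf
      rw [mem_pairsA] at hf
      ext x
      have := hf x
      simp [σ, pull_apply, eq_neg_of_add_eq_zero_right this]
      ring
  have h := hp.trace
  rw [map_smul, map_sub, LinearMap.trace_id, trace_pull, Module.finrank_pi, smul_eq_mul] at h
  rw [← Nat.card_eq_fintype_card] at h
  apply Nat.cast_injective (R := k)
  push_cast
  linear_combination (-2 : k) * h

lemma three_finrank_pairsB :
    3 * Module.finrank k (pairsB N k) + 2 * Nat.card {x : XX // eltU • x = x}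
      = 2 * Nat.card XX := by
  classical
  haveI : Finite XX := Subgroup.finite_quotient_of_finiteIndex
  letI := Fintype.ofFinite XX
  set τ := pull N k eltU
  have hp : LinearMap.IsProj (pairsB N k)
      ((3⁻¹ : k) • ((2 : k) • LinearMap.id - τ - pull N k (eltU * eltU))) := by
    constructor
    · intro f
      rw [mem_pairsB]
      intro x
      simp [τ, pull_apply, mul_smul, eltU_smul_three]
      ring
    · intro f hf
      rw [mem_pairsB] at hf
      ext x
      have := hf x
      simp [τ, pull_apply, mul_smul]
      linear_combination (-(3⁻¹ : k)) * this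
  have hfix : Nat.card {x : XX // (eltU * eltU) • x = x} = Nat.card {x : XX // eltU • x = x} := by
    refine Nat.card_congr (Equiv.subtypeEquivRight fun x => ⟨fun h => ?_, fun h => ?_⟩)
    · rw [mul_smul] at h
      have := eltU_smul_three x
      rwa [h] at this
    · rw [mul_smul, h, h]
  have h := hp.trace
  rw [map_smul, map_sub, map_sub, map_smul, LinearMap.trace_id, trace_pull, trace_pull, hfix,
    Module.finrank_pi, smul_eq_mul, smul_eq_mul, ← Nat.card_eq_fintype_card] at h
  apply Nat.cast_injective (R := k)
  push_cast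
  linear_combination (-3 : k) * h

lemma finrank_atT :
    Nat.card XX ≤ Module.finrank k (LinearMap.range (atT N k)) + 1 := by
  classical
  haveI : Finite XX := Subgroup.finite_quotient_of_finiteIndex
  letI := Fintype.ofFinite XX
  set J := LinearMap.range (atT N k)
  have key : J.dualAnnihilator ≤ k ∙ (∑ x : XX, LinearMap.proj x) := by
    intro l hl
    rw [Submodule.mem_dualAnnihilator] at hl
    set lam : XX → k := fun x => l (Pi.single x 1)
    have hl' : ∀ f : XX → k, l f = ∑ x, f x * lam x := fun f => by
      conv_lhs => rw [pi_eq_sum_univ f, map_sum]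
      refine Finset.sum_congr rfl fun x _ => ?_
      rw [map_smul, smul_eq_mul]
      congr 2
      ext y; simp [Pi.single_apply, eq_comm]
    have hB : ∀ x, lam (eltU • x) = lam x := by
      intro x
      have hb : (Pi.single x 1 : XX → k) - Pi.single (eltU • x) 1 ∈ pairsB N k := by
        rw [mem_pairsB]; intro y
        have hinj := MulAction.injective (α := G2) (β := XX) eltU
        simp only [Pi.sub_apply, Pi.single_apply, hinj.eq_iff]
        have e2 : eltU • eltU • y = x ↔ y = eltU • x := by
          constructor
          · rintro rfl; rw [eltU_smul_three]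
          · rintro rfl; rw [eltU_smul_three]
        simp only [e2]
        ring
      have := hl _ ⟨(0, ⟨_, hb⟩), rfl⟩
      simp only [atT, LinearMap.coprod_apply, map_zero, zero_add, Submodule.subtype_apply,
        map_sub] at this
      exact (sub_eq_zero.mp this).symm
    have hS : ∀ x, lam (ModularGroup.S • x) = lam x := by
      intro x
      have ha : (Pi.single x 1 : XX → k) - Pi.single (ModularGroup.S • x) 1 ∈ pairsA N k := by
        rw [mem_pairsA]; intro y
        have e2 : ModularGroup.S • y = x ↔ y = ModularGroup.S • x := by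
          constructor
          · rintro rfl; rw [S_smul_S_smul]
          · rintro rfl; rw [S_smul_S_smul]
        simp only [Pi.sub_apply, Pi.single_apply, (MulAction.injective ModularGroup.S).eq_iff, e2]
        ring
      have := hl _ ⟨(⟨_, ha⟩, 0), rfl⟩
      simp only [atT, LinearMap.coprod_apply, map_zero, add_zero, LinearMap.comp_apply,
        Submodule.subtype_apply, map_sub] at this
      have e : ∀ y : XX, l (pull N k eltU (Pi.single y 1)) = lam y := fun y => by
        have : pull N k eltU (Pi.single y (1 : k)) = Pi.single (eltU⁻¹ • y) 1 := by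
          ext z; simp [pull_apply, Pi.single_apply, eq_inv_smul_iff]
        rw [this]
        have := hB (eltU⁻¹ • y)
        simpa [lam] using this.symm
      rw [e, e, sub_eq_zero] at this
      exact this.symm
    have hall : ∀ (g : G2) (x : XX), lam (g • x) = lam x := by
      intro g
      have hg : g ∈ Subgroup.closure ({ModularGroup.S, eltU} : Set G2) := by simp [closure_S_eltU]
      induction hg using Subgroup.closure_induction with
      | mem g hg => rcases hg with rfl | rfl <;> assumption
      | one => simp
      | mul g h _ _ ihg ihh => intro x; rw [mul_smul, ihg, ihh]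
      | inv g _ ih => intro x; rw [← ih (g⁻¹ • x), smul_inv_smul]
    refine Submodule.mem_span_singleton.mpr ⟨lam (QuotientGroup.mk 1), LinearMap.ext fun f => ?_⟩
    rw [hl', LinearMap.smul_apply, LinearMap.sum_apply, smul_eq_mul, Finset.mul_sum]
    refine Finset.sum_congr rfl fun x _ => ?_
    obtain ⟨g, rfl⟩ := MulAction.exists_smul_eq G2 (QuotientGroup.mk 1 : XX) x
    rw [hall, LinearMap.proj_apply, mul_comm]
  have h1 := Submodule.finrank_mono key
  have h2 := Subspace.finrank_add_finrank_dualAnnihilator_eq J
  have h3 : Module.finrank k (k ∙ (∑ x : XX, LinearMap.proj x : Module.Dual k (XX → k))) ≤ 1 :=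
    (finrank_span_le_card _).trans (by simp)
  rw [Module.finrank_pi, ← Nat.card_eq_fintype_card] at h2
  omega

lemma card_orbits_le_finrank_avg :
    Nat.card (MulAction.orbitRel.Quotient (Subgroup.zpowers (ModularGroup.T : G2)) XX)
      ≤ Module.finrank k (LinearMap.range (avg N k)) := by
  classical
  haveI : Finite XX := Subgroup.finite_quotient_of_finiteIndex
  set Ω := MulAction.orbitRel.Quotient (Subgroup.zpowers (ModularGroup.T : G2)) XX
  haveI : Finite Ω := Finite.of_surjective _ Quotient.mk''_surjective
  letI := Fintype.ofFinite Ω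
  set pr : XX → Ω := Quotient.mk''
  have hpr : Function.Surjective pr := Quotient.mk''_surjective
  have h : LinearMap.range (LinearMap.funLeft k k pr) ≤ LinearMap.range (avg N k) := by
    rintro _ ⟨f, rfl⟩
    refine ⟨(N : k)⁻¹ • LinearMap.funLeft k k pr f, ?_⟩
    ext x
    have e : ∀ i : ℕ, pr (ModularGroup.T ^ i • x) = pr x := fun i =>
      Quotient.sound' ⟨⟨ModularGroup.T ^ i, Subgroup.npow_mem_zpowers _ _⟩, rfl⟩
    simp [avg, Finset.sum_apply, pull_apply, LinearMap.funLeft_apply, e]
    field_simp [NeZero.ne]
  refine le_trans ?_ (Submodule.finrank_mono h)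
  rw [LinearMap.finrank_range_of_inj (LinearMap.funLeft_injective_of_surjective k k pr hpr),
    Module.finrank_pi, Nat.card_eq_fintype_card]

variable (N k)

noncomputable def toPairs :
    (parabolicHoms k (Gamma0 N) k × (XX → k)) →ₗ[k]
      (pairsA N k × pairsB N k) where
  toFun p :=
    (⟨fun x => shapiro p.1.1 ModularGroup.S x + p.2 (ModularGroup.S • x) - p.2 x, by
      rw [mem_pairsA]; intro x
      have h := shapiro_mul p.1.1 ModularGroup.S ModularGroup.S x
      rw [S_mul_S, shapiro_eq_zero_of_parabolic p.1.2 _ _ (neg_one_smul_coset x)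
        (by simp [Matrix.trace_fin_two])] at h
      rw [S_smul_S_smul]
      linear_combination -h⟩,
     ⟨fun x => shapiro p.1.1 eltU x + p.2 (eltU • x) - p.2 x, by
      rw [mem_pairsB]; intro x
      have h := shapiro_mul p.1.1 eltU (eltU * eltU) x
      rw [eltU_pow_three, shapiro_eq_zero_of_parabolic p.1.2 _ _ (neg_one_smul_coset x)
        (by simp [Matrix.trace_fin_two]), shapiro_mul, mul_smul] at h
      rw [eltU_smul_three]
      linear_combination -h⟩)
  map_add' p q := by
    ext x <;> simp [shapiro] <;> ring
  map_smul' c p := by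
    ext x <;> simp [shapiro] <;> ring

variable {N k}

lemma toPairs_fst (p : parabolicHoms k (Gamma0 N) k × (XX → k)) (x : XX) :
    (toPairs N k p).1.1 x = shapiro p.1.1 ModularGroup.S x + p.2 (ModularGroup.S • x) - p.2 x := rfl

lemma toPairs_snd (p : parabolicHoms k (Gamma0 N) k × (XX → k)) (x : XX) :
    (toPairs N k p).2.1 x = shapiro p.1.1 eltU x + p.2 (eltU • x) - p.2 x := rfl

lemma atT_toPairs (p : parabolicHoms k (Gamma0 N) k × (XX → k)) (x : XX) :
    atT N k (toPairs N k p) x
      = shapiro p.1.1 ModularGroup.T x + p.2 (ModularGroup.T • x) - p.2 x := by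
  have hSS : ∀ y : XX, shapiro p.1.1 ModularGroup.S (ModularGroup.S • y)
      + shapiro p.1.1 ModularGroup.S y = 0 := fun y => by
    rw [← shapiro_mul, S_mul_S, shapiro_eq_zero_of_parabolic p.1.2 _ _ (neg_one_smul_coset y)
        (by simp [Matrix.trace_fin_two])]
  have hU : eltU • x = ModularGroup.S • ModularGroup.T • x := by rw [eltU, mul_smul]
  have h := shapiro_mul p.1.1 ModularGroup.S ModularGroup.T x
  simp only [atT, toPairs, LinearMap.coe_mk, AddHom.coe_mk, LinearMap.coprod_apply,
    LinearMap.comp_apply, Submodule.subtype_apply, pull_apply, Pi.add_apply]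
  rw [show shapiro p.1.1 eltU x = _ from h, hU, S_smul_S_smul]
  linear_combination hSS (ModularGroup.T • x)

lemma ker_toPairs :
    LinearMap.ker (toPairs N k) ≤ k ∙ ((0, fun _ => 1) : parabolicHoms k (Gamma0 N) k × (XX → k)) := by
  rintro ⟨φ, ψ⟩ h
  rw [LinearMap.mem_ker, Prod.ext_iff] at h
  have hS : ∀ x, shapiro φ.1 ModularGroup.S x + ψ (ModularGroup.S • x) - ψ x = 0 := fun x => by
    rw [← toPairs_fst (φ, ψ) x, h.1]; rfl
  have hU : ∀ x, shapiro φ.1 eltU x + ψ (eltU • x) - ψ x = 0 := fun x => by
    rw [← toPairs_snd (φ, ψ) x, h.2]; rfl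
  clear h
  have hall : ∀ g : G2, ∀ x, shapiro φ.1 g x + ψ (g • x) - ψ x = 0 := by
    intro g
    have hg : g ∈ Subgroup.closure ({ModularGroup.S, eltU} : Set G2) := by simp [closure_S_eltU]
    induction hg using Subgroup.closure_induction with
    | mem g hg =>
      rcases hg with rfl | rfl
      · exact hS
      · exact hU
    | one => intro x; simp [shapiro_one]
    | mul g h _ _ ihg ihh =>
      intro x; rw [shapiro_mul, mul_smul]
      linear_combination ihg (h • x) + ihh x
    | inv g _ ih =>
      intro x
      have := shapiro_mul φ.1 g g⁻¹ x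
      rw [mul_inv_cancel, shapiro_one] at this
      have h2 := ih (g⁻¹ • x)
      rw [smul_inv_smul] at h2
      linear_combination -h2 - this
  have hφ : φ = 0 := by
    refine Subtype.ext (AddMonoidHom.ext fun γ => ?_)
    set x₀ : XX := QuotientGroup.mk 1
    have hfix : ((Additive.toMul γ : Gamma0 N) : G2) • x₀ = x₀ := by
      rw [MulAction.Quotient.smul_mk, QuotientGroup.eq]; simp
    have hg := hall (Additive.toMul γ : Gamma0 N) x₀
    rw [hfix, add_sub_cancel_right] at hg
    have ho : x₀.out ∈ Gamma0 N := by
      have := QuotientGroup.out_eq' x₀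
      rw [eq_comm, QuotientGroup.eq] at this
      simpa using this
    have e : φ.1 γ = shapiro φ.1 ((Additive.toMul γ : Gamma0 N) : G2) x₀ := by
      have : (⟨_, stab_mem ((Additive.toMul γ : Gamma0 N) : G2) x₀⟩ : Gamma0 N)
          = ⟨_, ho⟩⁻¹ * Additive.toMul γ * ⟨_, ho⟩ := by
        apply Subtype.ext; simp [hfix]
      rw [shapiro, this, ofMul_mul, ofMul_mul, map_add, map_add, ofMul_inv, map_neg, ofMul_toMul]
      abel
    simp [e, hg]
  refine Submodule.mem_span_singleton.mpr ⟨ψ (QuotientGroup.mk 1), ?_⟩
  refine Prod.ext (by simp [hφ]) (funext fun x => ?_)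
  obtain ⟨g, rfl⟩ := MulAction.exists_smul_eq G2 (QuotientGroup.mk 1 : XX) x
  have := hall g (QuotientGroup.mk 1)
  simp [hφ, shapiro] at this
  simp
  linear_combination -this

lemma range_toPairs_le :
    LinearMap.range (toPairs N k) ≤ LinearMap.ker (avg N k ∘ₗ atT N k) := by
  rintro _ ⟨p, rfl⟩
  rw [LinearMap.mem_ker, LinearMap.comp_apply]
  ext x
  simp only [avg, LinearMap.sum_apply, Finset.sum_apply, pull_apply, atT_toPairs, Pi.zero_apply]
  rw [Finset.sum_sub_distrib, Finset.sum_add_distrib, ← shapiro_T_pow,
    shapiro_eq_zero_of_parabolic p.1.2 _ _ (T_pow_level_smul x)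
      (by rw [← zpow_natCast, ModularGroup.coe_T_zpow, Matrix.trace_fin_two]; norm_num)]
  simp only [zero_add, ← mul_smul, ← pow_succ']
  rw [← Finset.sum_sub_distrib, Finset.sum_range_sub (fun i => p.2 (ModularGroup.T ^ i • x)),
    T_pow_level_smul]
  simp

instance parabolic_finiteDimensional : FiniteDimensional k (parabolicHoms k (Gamma0 N) k) := by
  haveI : Finite XX := Subgroup.finite_quotient_of_finiteIndex
  refine Module.Finite.of_injective
    (toPairs N k ∘ₗ LinearMap.inl k _ (XX → k)) ?_
  rw [← LinearMap.ker_eq_bot, eq_bot_iff]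
  intro φ hφ
  obtain ⟨c, hc⟩ := Submodule.mem_span_singleton.mp (ker_toPairs hφ)
  simpa using (congrArg Prod.fst hc).symm

variable (N k)

theorem finrank_parabolicHoms_bound :
    6 * Module.finrank k (parabolicHoms k (Gamma0 N) k)
      + 3 * Nat.card {x : XX // ModularGroup.S • x = x}
      + 4 * Nat.card {x : XX // eltU • x = x}
      + 6 * Nat.card (MulAction.orbitRel.Quotient (Subgroup.zpowers (ModularGroup.T : G2)) XX)
    ≤ Nat.card XX + 12 := by
  classical
  haveI : Finite XX := Subgroup.finite_quotient_of_finiteIndex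
  letI := Fintype.ofFinite XX
  have h1 := LinearMap.finrank_range_add_finrank_ker (toPairs N k)
  have h2 := Submodule.finrank_mono (ker_toPairs (N := N) (k := k))
  have h3 : Module.finrank k
      (k ∙ ((0, fun _ => 1) : parabolicHoms k (Gamma0 N) k × (XX → k))) ≤ 1 :=
    (finrank_span_le_card _).trans (by simp)
  have h4 := Submodule.finrank_mono (range_toPairs_le (N := N) (k := k))
  have h5 := LinearMap.finrank_range_add_finrank_ker (avg N k ∘ₗ atT N k)
  have h6 : Module.finrank k (LinearMap.range (atT N k))
      ≤ Module.finrank k (LinearMap.range (avg N k ∘ₗ atT N k))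
        + Module.finrank k (LinearMap.ker (avg N k)) := by
    rw [LinearMap.range_comp]
    have := LinearMap.finrank_range_add_finrank_ker ((avg N k).domRestrict (LinearMap.range (atT N k)))
    rw [LinearMap.range_domRestrict, LinearMap.ker_domRestrict] at this
    have h7 : Module.finrank k ((LinearMap.ker (avg N k)).comap (LinearMap.range (atT N k)).subtype)
        ≤ Module.finrank k (LinearMap.ker (avg N k)) := by
      refine LinearMap.finrank_le_finrank_of_injective
        (f := ((LinearMap.range (atT N k)).subtype ∘ₗ Submodule.subtype _).codRestrict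
          (LinearMap.ker (avg N k)) fun x => x.2) ?_
      intro a b hab
      exact Subtype.ext (Subtype.ext (congrArg (fun z : LinearMap.ker (avg N k) => (z : XX → k)) hab))
    omega
  have h8 := LinearMap.finrank_range_add_finrank_ker (avg N k)
  have h9 := finrank_atT (N := N) (k := k)
  have h10 := card_orbits_le_finrank_avg (N := N) (k := k)
  have h11 := two_finrank_pairsA (N := N) (k := k)
  have h12 := three_finrank_pairsB (N := N) (k := k)
  rw [Module.finrank_prod, Module.finrank_pi, ← Nat.card_eq_fintype_card] at h1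
  rw [Module.finrank_prod] at h5
  rw [Module.finrank_pi, ← Nat.card_eq_fintype_card] at h8
  omega

end Field

end FLTAgent.Periods
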