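import Fermat.Agent.Periods.Primitive

set_option autoImplicit false

open UpperHalfPlane Complex Metric Filter Topology CongruenceSubgroup ModularCurve ModularCurve.Period
open scoped MatrixGroups Real ModularForm Manifold ComplexConjugate

local notation "𝕢" => Function.Periodic.qParam

namespace FLTAgent.Periods

variable {N : ℕ} [NeZero N]

lemma eq_const_of_re_invariant {G : ℍ → ℂ} (hG : IsNice N G)
    (hre : ∀ γ ∈ Gamma0 N, ∀ z : ℍ, (G (γ • z)).re = (G z).re) :
    ∀ τ : ℍ, HasDerivAt (G ∘ ofComplex) 0 τ := by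
  haveI : Finite (SL(2, ℤ) ⧸ Gamma0 N) := Subgroup.finite_quotient_of_finiteIndex
  choose H hHd hH using hG
  replace hH : ∀ (δ : SL(2, ℤ)) (w : ℍ), G (δ • w) = H δ (𝕢 N w) := hH
  set X := SL(2, ℤ) ⧸ Gamma0 N
  set r : ℝ := Real.exp (-π / N)
  have hr : r < 1 := Real.exp_lt_one_iff.mpr
    (div_neg_of_neg_of_pos (neg_lt_zero.mpr Real.pi_pos) level_pos)
  have hexp : ∀ δ : SL(2, ℤ), DifferentiableOn ℂ (fun q => Complex.exp (H δ q)) (ball 0 1) :=
    fun δ => (hHd δ).cexp
  have hmax : ∀ x : X, ∃ q ∈ closedBall (0 : ℂ) r, ∀ p ∈ closedBall (0 : ℂ) r,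
      ‖Complex.exp (H x.out⁻¹ p)‖ ≤ ‖Complex.exp (H x.out⁻¹ q)‖ := by
    intro x
    obtain ⟨q, hq, hq'⟩ := (isCompact_closedBall (0 : ℂ) r).exists_isMaxOn
      (nonempty_closedBall.mpr (Real.exp_pos _).le)
      (((hexp x.out⁻¹).continuousOn.mono (closedBall_subset_ball hr)).norm)
    exact ⟨q, hq, fun p hp => hq' hp⟩
  choose q hq hqmax using hmax
  obtain ⟨x₀, hx₀⟩ := Finite.exists_max fun x : X => ‖Complex.exp (H x.out⁻¹ (q x))‖
  have hrep : ∀ δ : SL(2, ℤ), ∀ w : ℍ, ∃ x : X, (G (δ • w)).re = (G (x.out⁻¹ • w)).re := by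
    intro δ w
    set x : X := QuotientGroup.mk δ⁻¹
    have hmem : x.out⁻¹ * δ⁻¹ ∈ Gamma0 N := QuotientGroup.eq.mp (QuotientGroup.out_eq' x)
    refine ⟨x, ?_⟩
    rw [← hre _ hmem (δ • w), ← mul_smul]
    simp
  have hall : ∀ z : ℍ, ‖Complex.exp (G z)‖ ≤ ‖Complex.exp (H x₀.out⁻¹ (q x₀))‖ := by
    intro z
    obtain ⟨γ, hγ⟩ := ModularGroup.exists_one_half_le_im_smul z
    obtain ⟨x, hx⟩ := hrep γ⁻¹ (γ • z)
    rw [inv_smul_smul] at hx
    calc ‖Complex.exp (G z)‖ = ‖Complex.exp (G (x.out⁻¹ • γ • z))‖ := by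
          simp [Complex.norm_exp, hx]
      _ = ‖Complex.exp (H x.out⁻¹ (𝕢 N ((γ • z : ℍ) : ℂ)))‖ := by rw [← hH]
      _ ≤ ‖Complex.exp (H x.out⁻¹ (q x))‖ := by
          refine hqmax x _ ?_
          rw [mem_closedBall_zero_iff, Function.Periodic.norm_qParam]
          refine Real.exp_le_exp.mpr ?_
          gcongr
          rw [UpperHalfPlane.coe_im]
          nlinarith [Real.pi_pos]
      _ ≤ _ := hx₀ x
  have hconst := eq_const_of_exists_le (hexp x₀.out⁻¹) (Real.exp_pos _).le hr fun p hp => by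
    refine ⟨q x₀, hq x₀, ?_⟩
    rcases eq_or_ne p 0 with rfl | hp'
    · exact hqmax x₀ 0 (mem_closedBall_self (Real.exp_pos _).le)
    · have him := Function.Periodic.im_invQParam_pos_of_norm_lt_one (level_pos (N := N))
        (mem_ball_zero_iff.mp hp) hp'
      have := hall (x₀.out⁻¹ • (⟨_, him⟩ : ℍ))
      rw [hH] at this
      simpa [Function.Periodic.qParam_right_inv level_pos.ne' hp'] using this
  have hE : ∀ z : ℍ, Complex.exp (G z) = Complex.exp (H x₀.out⁻¹ 0) := fun z => by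
    have := hconst (qParam_mem_ball (N := N) (x₀.out • z))
    simpa [← hH] using this
  intro τ
  have hGd : DifferentiableAt ℂ (G ∘ ofComplex) τ := by
    have : HasDisc N G := ⟨H 1, hHd 1, fun w => by simpa using hH 1 w⟩
    exact this.differentiableAt τ
  have h1 := hGd.hasDerivAt.cexp
  have h2 : HasDerivAt (fun z => Complex.exp ((G ∘ ofComplex) z)) 0 τ := by
    simp only [Function.comp_apply, hE]
    exact hasDerivAt_const _ _
  have h3 := h1.unique h2
  simp [Complex.exp_ne_zero] at h3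
  simpa [h3] using! hGd.hasDerivAt

/-- `w ↦ -w̄` -/
noncomputable def refl (w : ℍ) : ℍ := ⟨-conj (w : ℂ), by simp [w.im_pos]⟩

lemma refl_smul (δ : SL(2, ℤ)) (w : ℍ) : refl (δ • w) = jConjSL δ • refl w := by
  apply UpperHalfPlane.ext
  show -conj (((δ • w : ℍ)) : ℂ) = ((jConjSL δ • refl w : ℍ) : ℂ)
  rw [coe_specialLinearGroup_apply, coe_specialLinearGroup_apply]
  simp [refl, map_div₀]
  rw [neg_div', neg_add]

lemma refl_refl (w : ℍ) : refl (refl w) = w := by
  apply UpperHalfPlane.ext; simp [refl]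

lemma qParam_refl (h : ℝ) (w : ℍ) : 𝕢 h (refl w) = conj (𝕢 h w) := by
  simp only [Function.Periodic.qParam, refl, ← Complex.exp_conj]
  congr 1
  simp [map_div₀, Complex.conj_I, Complex.conj_ofReal, map_ofNat]

/-- `w ↦ conj (F (-w̄))` -/
noncomputable def reflFun (F : ℍ → ℂ) (w : ℍ) : ℂ := conj (F (refl w))

lemma IsNice.reflFun {F : ℍ → ℂ} (hF : IsNice N F) : IsNice N (reflFun F) := by
  intro δ
  obtain ⟨H, hHd, hH⟩ := hF (jConjSL δ)
  refine ⟨fun q => conj (H (conj q)), fun q hq => ?_, fun w => ?_⟩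
  · have : DifferentiableAt ℂ H (conj q) :=
      hHd.differentiableAt (isOpen_ball.mem_nhds (by simpa using hq))
    have h2 := this.conj_conj
    rw [RCLike.conj_conj] at h2
    exact h2.differentiableWithinAt
  · simp only [Periods.reflFun, refl_smul]
    beta_reduce at hH ⊢
    rw [hH, qParam_refl]

lemma IsNice.comp_linear {F G : ℍ → ℂ} (hF : IsNice N F) (hG : IsNice N G) (a b : ℂ) :
    IsNice N (fun w => a * F w + b * G w) :=
  fun δ => (hF δ).comp_linear (hG δ) a b

lemma eq_zero_of_charInvolution (f : CuspForm (Gamma0 N) 2) (c : ℝ) (hc : c * c = 1)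
    (h : charInvolution N ℂ ℂ (periodMap N f) = (c : ℂ) • periodMap N f) : f = 0 := by
  obtain ⟨F, hnice, hF⟩ := exists_primitive f
  have hP : ∀ γ : Gamma0 N, ∀ z : ℍ,
      F ((γ : SL(2, ℤ)) • z) - F z = periodMap N f (Additive.ofMul γ) := fun γ z => by
    rw [periodMap_eq f hF, IsEquivariantPrimitive.periodHom_apply]
    exact hF.2.2.1.sub_eq_period γ z
  have hJ : ∀ γ : Gamma0 N, ∀ z : ℍ, F (refl ((γ : SL(2, ℤ)) • z)) - F (refl z)
      = c * periodMap N f (Additive.ofMul γ) := fun γ z => by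
    rw [refl_smul, ← jConjGamma0_coe, hP]
    exact DFunLike.congr_fun h (Additive.ofMul γ)
  have h1 := eq_const_of_re_invariant (hnice.comp_linear hnice.reflFun 1 (-(c : ℂ))) (by
    intro γ hγ z
    have a := congrArg Complex.re (hP ⟨γ, hγ⟩ z)
    have b := congrArg Complex.re (hJ ⟨γ, hγ⟩ z)
    set p := periodMap N f (Additive.ofMul (⟨γ, hγ⟩ : Gamma0 N))
    simp [reflFun] at a b ⊢
    linear_combination a - c * b - p.re * hc)
  have h2 := eq_const_of_re_invariant (hnice.comp_linear hnice.reflFun Complex.I (Complex.I * c)) (by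
    intro γ hγ z
    have a := congrArg Complex.im (hP ⟨γ, hγ⟩ z)
    have b := congrArg Complex.im (hJ ⟨γ, hγ⟩ z)
    set p := periodMap N f (Additive.ofMul (⟨γ, hγ⟩ : Gamma0 N))
    simp [reflFun] at a b ⊢
    linear_combination -a + c * b + p.im * hc)
  refine DFunLike.ext _ _ fun τ => ?_
  have h3 := ((h1 τ).const_mul Complex.I).add (h2 τ)
  have h4 : HasDerivAt (fun z => 2 * Complex.I * (F ∘ ofComplex) z) 0 τ := by
    refine HasDerivAt.congr_of_eventuallyEq (by simpa using! h3) (Eventually.of_forall fun z => ?_)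
    simp [Function.comp]; ring
  have h5 := ((hF.1 τ).const_mul (2 * Complex.I)).unique h4
  simpa [Complex.I_ne_zero] using h5

theorem periodHomPair_injective : Function.Injective (periodHomPair N) := by
  obtain ⟨pml, hpml, e⟩ := periodHomPair_def N existsPeriodMapLinear
  rw [e, injective_iff_map_eq_zero]
  rintro ⟨f, g⟩ h
  simp only [LinearMap.coprod_apply, LinearMap.comp_apply, LinearMap.add_apply, LinearMap.sub_apply,
    LinearMap.id_apply, hpml] at h
  have h' := congrArg (charInvolution N ℂ ℂ) h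
  simp only [map_add, map_sub, map_zero, charInvolution_charInvolution] at h'
  set ι := charInvolution N ℂ ℂ
  have hf : ι (periodMap N f) = ((-1 : ℝ) : ℂ) • periodMap N f := by
    refine AddMonoidHom.ext fun γ => ?_
    have a := DFunLike.congr_fun h γ
    have b := DFunLike.congr_fun h' γ
    simp at a b ⊢
    linear_combination (a + b) / 2
  have hg : ι (periodMap N g) = ((1 : ℝ) : ℂ) • periodMap N g := by
    refine AddMonoidHom.ext fun γ => ?_
    have a := DFunLike.congr_fun h γ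
    have b := DFunLike.congr_fun h' γ
    simp at a b ⊢
    linear_combination (b - a) / 2
  rw [eq_zero_of_charInvolution f (-1) (by norm_num) hf,
    eq_zero_of_charInvolution g 1 (by norm_num) hg]
  rfl

lemma exists_conj_T_zpow {γ : SL(2, ℤ)} (ht : (γ : Matrix (Fin 2) (Fin 2) ℤ).trace ^ 2 = 4) :
    ∃ (δ : SL(2, ℤ)) (m : ℤ), γ = δ * ModularGroup.T ^ m * δ⁻¹ ∨
      γ = -(δ * ModularGroup.T ^ m * δ⁻¹) := by
  have main : ∀ γ : SL(2, ℤ), γ 0 0 + γ 1 1 = 2 →
      ∃ (δ : SL(2, ℤ)) (m : ℤ), γ = δ * ModularGroup.T ^ m * δ⁻¹ := by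
    intro γ h
    have hdet : γ 0 0 * γ 1 1 - γ 0 1 * γ 1 0 = 1 := by
      have := Matrix.SpecialLinearGroup.det_coe γ
      rwa [Matrix.det_fin_two] at this
    obtain ⟨x, y, hxy, e1, e2⟩ : ∃ x y : ℤ, IsCoprime x y ∧ (γ 0 0 - 1) * x + γ 0 1 * y = 0 ∧
        γ 1 0 * x + (γ 1 1 - 1) * y = 0 := by
      by_cases hb : γ 0 1 = 0
      · have ha : γ 0 0 = 1 := by
          rw [hb] at hdet
          have : (γ 0 0 - 1) ^ 2 = 0 := by linear_combination γ 0 0 * h - hdet
          have := pow_eq_zero_iff (two_ne_zero) |>.mp this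
          linarith
        exact ⟨0, 1, isCoprime_one_right, by simp [hb], by simp; omega⟩
      · obtain ⟨u, v, huv, g, hu, hv⟩ : ∃ u v : ℤ, IsCoprime u v ∧ ∃ g : ℤ, γ 0 1 = u * g ∧
            1 - γ 0 0 = v * g := by
          obtain ⟨g, u, v, hg, huv, hu, hv⟩ :=
            Int.exists_gcd_one' (Int.gcd_pos_of_ne_zero_left (1 - γ 0 0) hb)
          exact ⟨u, v, Int.isCoprime_iff_gcd_eq_one.mpr huv, g, hu, hv⟩
        refine ⟨u, v, huv, ?_, ?_⟩
        · linear_combination v * hu - u * hv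
        · have hg : g ≠ 0 := fun h0 => hb (by simp [hu, h0])
          refine mul_left_cancel₀ hg ?_
          linear_combination (-γ 1 0) * hu - (γ 1 1 - 1) * hv - hdet + h
    obtain ⟨a, b, hab⟩ := hxy
    set δ : SL(2, ℤ) := ⟨!![x, -b; y, a], by simp [Matrix.det_fin_two]; linarith⟩
    set e := δ⁻¹ * γ * δ with he
    refine ⟨δ, e 0 1, ?_⟩
    have h00 : e 0 0 = 1 := by
      rw [he, Matrix.SpecialLinearGroup.coe_mul, Matrix.SpecialLinearGroup.coe_mul,
        Matrix.SpecialLinearGroup.coe_inv]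
      simp [δ, Matrix.adjugate_fin_two, Matrix.mul_apply, Matrix.vecMul, dotProduct, Fin.sum_univ_two]
      linear_combination a * e1 + b * e2 + hab
    have h10 : e 1 0 = 0 := by
      rw [he, Matrix.SpecialLinearGroup.coe_mul, Matrix.SpecialLinearGroup.coe_mul,
        Matrix.SpecialLinearGroup.coe_inv]
      simp [δ, Matrix.adjugate_fin_two, Matrix.mul_apply, Matrix.vecMul, dotProduct, Fin.sum_univ_two]
      linear_combination (-y) * e1 + x * e2
    have h11 : e 1 1 = 1 := by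
      have := Matrix.SpecialLinearGroup.det_coe e
      rw [Matrix.det_fin_two, h00, h10] at this
      linarith
    have hT : e = ModularGroup.T ^ (e 0 1) := by
      apply Subtype.ext
      rw [ModularGroup.coe_T_zpow]
      ext i j; fin_cases i <;> fin_cases j <;> simp [h00, h10, h11]
    rw [← hT, he]; group
  rw [Matrix.trace_fin_two] at ht
  have : γ 0 0 + γ 1 1 = 2 ∨ γ 0 0 + γ 1 1 = -2 := by
    rw [← sq_eq_sq_iff_eq_or_eq_neg]; linear_combination ht
  rcases this with h | h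
  · obtain ⟨δ, m, e⟩ := main γ h
    exact ⟨δ, m, Or.inl e⟩
  · obtain ⟨δ, m, e⟩ := main (-γ) (by simp; linarith)
    exact ⟨δ, m, Or.inr (by rw [← e, neg_neg])⟩

lemma periodMap_mem_parabolicHoms (f : CuspForm (Gamma0 N) 2) :
    periodMap N f ∈ parabolicHoms ℂ (Gamma0 N) ℂ := by
  obtain ⟨F, -, hF⟩ := exists_primitive f
  intro γ hγ
  obtain ⟨δ, m, hm⟩ := exists_conj_T_zpow hγ
  have hsmul : ∀ z : ℍ, (γ : SL(2, ℤ)) • z = (δ * ModularGroup.T ^ m * δ⁻¹) • z := fun z => by
    rcases hm with h | h <;> rw [h]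
    exact ModularGroup.SL_neg_smul _ z
  obtain ⟨L, hL⟩ := hF.2.2.2 δ
  have ht : Tendsto (fun w : ℍ => ModularGroup.T ^ m • w) atImInfty atImInfty := by
    rw [atImInfty, tendsto_comap_iff]
    refine tendsto_comap.congr fun w => ?_
    rw [Function.comp_apply, modular_T_zpow_smul]
    simp
  rw [periodMap_eq f hF, IsEquivariantPrimitive.periodHom_apply]
  have h1 : Tendsto (fun w : ℍ => F ((γ : SL(2, ℤ)) • δ • w) - F (δ • w)) atImInfty (𝓝 (L - L)) := by
    refine Tendsto.sub ?_ hL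
    refine (hL.comp ht).congr fun w => ?_
    simp [hsmul, mul_smul]
  simp only [hF.2.2.1.sub_eq_period γ, sub_self] at h1
  exact tendsto_const_nhds_iff.mp h1

theorem range_periodHomPair_le :
    LinearMap.range (periodHomPair N) ≤ parabolicHoms ℂ (Gamma0 N) ℂ := by
  obtain ⟨pml, hpml, e⟩ := periodHomPair_def N existsPeriodMapLinear
  rintro _ ⟨⟨f, g⟩, rfl⟩
  rw [e]
  simp only [LinearMap.coprod_apply, LinearMap.comp_apply, LinearMap.add_apply, LinearMap.sub_apply,
    LinearMap.id_apply, hpml]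
  exact add_mem (add_mem (periodMap_mem_parabolicHoms f)
    (charInvolution_mem_parabolicHoms N ℂ ℂ (periodMap_mem_parabolicHoms f)))
    (sub_mem (periodMap_mem_parabolicHoms g)
    (charInvolution_mem_parabolicHoms N ℂ ℂ (periodMap_mem_parabolicHoms g)))

end FLTAgent.Periods
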