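import Mathlib
import Fermat.Prelude.Def_ModularCurve_PeriodHomPair

set_option autoImplicit false

open UpperHalfPlane Complex Metric Filter Topology CongruenceSubgroup ModularCurve ModularCurve.Period
open scoped MatrixGroups Real ModularForm Manifold

local notation "𝕢" => Function.Periodic.qParam

namespace FLTAgent.Periods

variable {N : ℕ} [NeZero N]

lemma level_pos : (0 : ℝ) < (N : ℝ) := by exact_mod_cast Nat.pos_of_ne_zero (NeZero.ne N)

/-- `G` is a holomorphic function of `q_N`, also at `q = 0`. -/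
def HasDisc (N : ℕ) (G : ℍ → ℂ) : Prop :=
  ∃ H : ℂ → ℂ, DifferentiableOn ℂ H (ball 0 1) ∧ ∀ w : ℍ, G w = H (𝕢 N w)

def IsNice (N : ℕ) (G : ℍ → ℂ) : Prop :=
  ∀ δ : SL(2, ℤ), HasDisc N (fun w => G (δ • w))

lemma qParam_mem_ball (w : ℍ) : 𝕢 (N : ℝ) w ∈ ball (0 : ℂ) 1 := by
  rw [mem_ball_zero_iff]
  exact Function.Periodic.norm_qParam_lt_one level_pos w.im_pos

lemma hasDerivAt_qParam (h : ℝ) (z : ℂ) :
    HasDerivAt (𝕢 h) (𝕢 h z * (2 * π * Complex.I / h)) z := by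
  have := ((hasDerivAt_id z).const_mul (2 * π * Complex.I : ℂ)).div_const (h : ℂ) |>.cexp
  simpa [Function.Periodic.qParam] using! this

lemma HasDisc.differentiableAt {G : ℍ → ℂ} (hG : HasDisc N G) (w : ℍ) :
    DifferentiableAt ℂ (G ∘ ofComplex) w := by
  obtain ⟨H, hH, hGH⟩ := hG
  have h1 : DifferentiableAt ℂ H (𝕢 (N : ℝ) w) :=
    hH.differentiableAt (isOpen_ball.mem_nhds (qParam_mem_ball w))
  have h2 : DifferentiableAt ℂ (H ∘ 𝕢 (N : ℝ)) w :=
    h1.comp _ (hasDerivAt_qParam _ _).differentiableAt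
  refine h2.congr_of_eventuallyEq ?_
  filter_upwards [isOpen_upperHalfPlaneSet.mem_nhds w.im_pos] with z hz
  simp [Function.comp, hGH, ofComplex_apply_of_im_pos hz]

lemma HasDisc.tendsto {G : ℍ → ℂ} (hG : HasDisc N G) : ∃ L, Tendsto G atImInfty (𝓝 L) := by
  obtain ⟨H, hH, hGH⟩ := hG
  refine ⟨H 0, ?_⟩
  have := (hH.differentiableAt (isOpen_ball.mem_nhds (mem_ball_self one_pos))).continuousAt.tendsto.comp
    (qParam_tendsto_atImInfty (h := (N : ℝ)) level_pos)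
  exact this.congr fun w => (hGH w).symm

omit [NeZero N] in
lemma HasDisc.comp_linear {G₁ G₂ : ℍ → ℂ} (h₁ : HasDisc N G₁) (h₂ : HasDisc N G₂) (a b : ℂ) :
    HasDisc N (fun w => a * G₁ w + b * G₂ w) := by
  obtain ⟨H₁, d₁, e₁⟩ := h₁
  obtain ⟨H₂, d₂, e₂⟩ := h₂
  exact ⟨fun q => a * H₁ q + b * H₂ q, (d₁.const_mul a).add (d₂.const_mul b),
    fun w => by simp [e₁, e₂]⟩

omit [NeZero N] in
lemma HasDisc.add_const {G : ℍ → ℂ} (h₁ : HasDisc N G) (c : ℂ) :
    HasDisc N (fun w => G w + c) := by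
  obtain ⟨H₁, d₁, e₁⟩ := h₁
  exact ⟨fun q => H₁ q + c, d₁.add_const c, fun w => by simp [e₁]⟩

lemma eq_add_const_of_hasDerivAt {A B D : ℍ → ℂ}
    (hA : ∀ τ : ℍ, HasDerivAt (A ∘ ofComplex) (D τ) τ)
    (hB : ∀ τ : ℍ, HasDerivAt (B ∘ ofComplex) (D τ) τ) :
    ∃ c : ℂ, ∀ τ, A τ = B τ + c := by
  refine ⟨A UpperHalfPlane.I - B UpperHalfPlane.I, fun τ => ?_⟩
  have hd : ∀ z ∈ upperHalfPlaneSet, HasDerivAt (fun z => (A ∘ ofComplex) z - (B ∘ ofComplex) z) 0 z :=
    fun z hz => by simpa using! (hA ⟨z, hz⟩).sub (hB ⟨z, hz⟩)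
  have := isOpen_upperHalfPlaneSet.is_const_of_deriv_eq_zero
    (f := fun z => (A ∘ ofComplex) z - (B ∘ ofComplex) z)
    ((convex_halfSpace_im_gt 0).isPreconnected)
    (fun z hz => (hd z hz).differentiableAt.differentiableWithinAt)
    (fun z hz => (hd z hz).deriv) τ.im_pos UpperHalfPlane.I.im_pos
  have hI : ofComplex Complex.I = UpperHalfPlane.I := by
    rw [ofComplex_apply_of_im_pos (by simp)]; rfl
  simp [hI] at this
  linear_combination this

lemma hasDerivAt_comp_smul {G D : ℍ → ℂ} (hG : ∀ τ : ℍ, HasDerivAt (G ∘ ofComplex) (D τ) τ)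
    (δ : SL(2, ℤ)) (τ : ℍ) :
    HasDerivAt ((fun w : ℍ => G (δ • w)) ∘ ofComplex) ((D ∣[(2 : ℤ)] δ) τ) τ := by
  have hdet : 0 < (δ : GL (Fin 2) ℝ).val.det := by
    rw [← Matrix.GeneralLinearGroup.val_det_apply]; simp
  have h1 := (hasStrictDerivAt_smul hdet τ).hasDerivAt
  have h2 : HasDerivAt (G ∘ ofComplex) (D (δ • τ))
      ((fun z ↦ ↑((δ : GL (Fin 2) ℝ) • ofComplex z) : ℂ → ℂ) τ) := by
    simpa [ofComplex_apply] using! hG (δ • τ)
  have h3 := h2.comp (τ : ℂ) h1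
  refine HasDerivAt.congr_of_eventuallyEq ?_ (f := (G ∘ ofComplex) ∘
    (fun z ↦ ↑((δ : GL (Fin 2) ℝ) • ofComplex z) : ℂ → ℂ)) ?_
  · convert! h3 using 1
    rw [ModularForm.SL_slash_apply, zpow_neg]
    simp [div_eq_mul_inv]
    left; exact_mod_cast Matrix.SpecialLinearGroup.det_coe δ
  · exact Eventually.of_forall fun z => by simp [Function.comp, ofComplex_apply]

variable (f : CuspForm (Gamma0 N) 2)

omit [NeZero N] in
lemma slash_of_mem {γ : SL(2, ℤ)} (hγ : γ ∈ Gamma0 N) : (⇑f) ∣[(2 : ℤ)] γ = ⇑f := by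
  rw [ModularForm.SL_slash]
  exact SlashInvariantFormClass.slash_action_eq f _ ⟨γ, hγ, rfl⟩

omit [NeZero N] in
lemma T_pow_conj_mem (δ : SL(2, ℤ)) : δ * ModularGroup.T ^ (N : ℤ) * δ⁻¹ ∈ Gamma0 N := by
  have h : ModularGroup.T ^ (N : ℤ) ∈ CongruenceSubgroup.Gamma N := by
    simpa using ModularGroup_T_pow_mem_Gamma (N : ℤ) (N : ℤ) dvd_rfl
  have := (Gamma_normal N).conj_mem _ h δ
  rw [Gamma_mem] at this
  exact Gamma0_mem.mpr this.2.2.1

omit [NeZero N] in
lemma periodic_slash (δ : SL(2, ℤ)) :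
    Function.Periodic (((⇑f) ∣[(2 : ℤ)] δ) ∘ ofComplex) ((N : ℝ) : ℂ) := by
  have key : ((⇑f) ∣[(2 : ℤ)] δ) ∣[(2 : ℤ)] (ModularGroup.T ^ (N : ℤ)) = (⇑f) ∣[(2 : ℤ)] δ := by
    rw [← SlashAction.slash_mul,
      show δ * ModularGroup.T ^ (N : ℤ) = (δ * ModularGroup.T ^ (N : ℤ) * δ⁻¹) * δ by group,
      SlashAction.slash_mul, slash_of_mem f (T_pow_conj_mem δ)]
  intro w
  rcases le_or_gt w.im 0 with hw | hw
  · have : (w + ((N : ℝ) : ℂ)).im ≤ 0 := by simpa using hw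
    simp only [Function.comp_apply, ofComplex_apply_of_im_nonpos this, ofComplex_apply_of_im_nonpos hw]
  · have h2 : 0 < (w + ((N : ℝ) : ℂ)).im := by simpa using hw
    simp only [Function.comp_apply, ofComplex_apply_of_im_pos hw, ofComplex_apply_of_im_pos h2]
    have := congrFun key ⟨w, hw⟩
    rw [ModularForm.SL_slash_apply] at this
    have e10 : (ModularGroup.T ^ (N : ℤ) : SL(2, ℤ)) 1 0 = 0 := by
      rw [ModularGroup.coe_T_zpow]; rfl
    have e11 : (ModularGroup.T ^ (N : ℤ) : SL(2, ℤ)) 1 1 = 1 := by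
      rw [ModularGroup.coe_T_zpow]; rfl
    generalize hT : (ModularGroup.T ^ (N : ℤ) : SL(2, ℤ)) = A at e10 e11 ⊢
    have hd : denom A (w : ℂ) = 1 := by
      simp [denom, e10, e11]
    rw [hT, show ((⟨w, hw⟩ : ℍ) : ℂ) = w from rfl, hd, one_zpow, mul_one] at this
    rw [← this, ← hT, modular_T_zpow_smul]
    refine congrArg _ ?_
    apply UpperHalfPlane.ext; simp [add_comm]

lemma exists_disc_primitive (δ : SL(2, ℤ)) :
    ∃ G : ℍ → ℂ, HasDisc N G ∧ Tendsto G atImInfty (𝓝 0) ∧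
      ∀ τ : ℍ, HasDerivAt (G ∘ ofComplex) (((⇑f) ∣[(2 : ℤ)] δ) τ) τ := by
  set φ := (⇑f) ∣[(2 : ℤ)] δ with hφ
  have hper := periodic_slash f δ
  have hhol : MDiff φ := (CuspFormClass.holo f).slash 2 _
  have hzero : IsZeroAtImInfty φ := CuspFormClass.zero_at_infty_slash f δ
  have hbdd : IsBoundedAtImInfty φ := hzero.boundedAtFilter
  have hc := differentiableOn_cuspFunction_ball level_pos hper hhol hbdd
  set c := cuspFunction (N : ℝ) φ with hcdef
  have hc0 : c 0 = 0 := by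
    rw [hcdef, cuspFunction_apply_zero level_pos
      (analyticAt_cuspFunction_zero level_pos hper hhol hbdd) hper, hzero.valueAtInfty_eq_zero]
  set k : ℂ := (N : ℂ) / (2 * π * Complex.I) with hk
  have hd : DifferentiableOn ℂ (fun q => k * dslope c 0 q) (ball 0 1) :=
    ((differentiableOn_dslope (ball_mem_nhds 0 one_pos)).mpr hc).const_mul k
  obtain ⟨H, hH⟩ := hd.isExactOn_ball
  refine ⟨fun w => H (𝕢 N w) - H 0, ⟨fun q => H q - H 0, ?_, fun w => rfl⟩, ?_, fun τ => ?_⟩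
  · exact fun q hq => ((hH q hq).differentiableAt.sub_const _).differentiableWithinAt
  · have := ((hH 0 (mem_ball_self one_pos)).continuousAt.tendsto.comp
      (qParam_tendsto_atImInfty (h := (N : ℝ)) level_pos)).sub_const (H 0)
    simpa using! this
  · have h1 := ((hH _ (qParam_mem_ball τ)).comp (τ : ℂ) (hasDerivAt_qParam (N : ℝ) τ)).sub_const (H 0)
    refine HasDerivAt.congr_of_eventuallyEq ?_ (f := fun z => H (𝕢 N z) - H 0) ?_
    · convert! h1 using 1
      have hq : 𝕢 (N : ℝ) τ ≠ 0 := Function.Periodic.qParam_ne_zero _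
      have hN : (N : ℂ) ≠ 0 := Nat.cast_ne_zero.mpr (NeZero.ne N)
      beta_reduce
      rw [dslope_of_ne _ hq, slope_def_field, hc0, hcdef, eq_cuspFunction τ level_pos.ne' hper, hk]
      have hpi : (2 * π * Complex.I : ℂ) ≠ 0 := two_pi_I_ne_zero
      push_cast
      field_simp
      ring
    · filter_upwards [isOpen_upperHalfPlaneSet.mem_nhds τ.im_pos] with z hz
      simp [Function.comp, ofComplex_apply_of_im_pos hz]

lemma exists_primitive :
    ∃ F : ℍ → ℂ, IsNice N F ∧ HasEquivariantPrimitive N f F := by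
  obtain ⟨F, hFd, hF0, hF⟩ := exists_disc_primitive f 1
  simp only [SlashAction.slash_one] at hF
  have key : ∀ δ : SL(2, ℤ), HasDisc N (fun w => F (δ • w)) := fun δ => by
    obtain ⟨G, hGd, -, hG⟩ := exists_disc_primitive f δ
    obtain ⟨c, hc⟩ := eq_add_const_of_hasDerivAt (fun τ => hasDerivAt_comp_smul hF δ τ) hG
    have := hGd.add_const c
    simp only [← hc] at this
    exact this
  refine ⟨F, key, hF, hF0, fun γ => ?_, fun δ => (key δ).tendsto⟩
  obtain ⟨c, hc⟩ := eq_add_const_of_hasDerivAt (fun τ => by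
    simpa only [slash_of_mem f γ.2] using! hasDerivAt_comp_smul hF (γ : SL(2, ℤ)) τ) hF
  exact ⟨c, fun z => by rw [hc z]; ring⟩

omit [NeZero N] in
lemma periodMap_eq {F : ℍ → ℂ} (hF : HasEquivariantPrimitive N f F) :
    periodMap N f = hF.2.2.1.periodHom := by
  obtain ⟨F₀, h₀, e⟩ := periodMap_def N f hF
  rw [e]
  obtain ⟨c, hc⟩ := eq_add_const_of_hasDerivAt h₀.1 hF.1
  refine AddMonoidHom.ext fun γ => ?_
  show F₀ _ - F₀ _ = F _ - F _
  rw [hc, hc]; ring

lemma periodMap_add (g : CuspForm (Gamma0 N) 2) :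
    periodMap N (f + g) = periodMap N f + periodMap N g := by
  obtain ⟨F, -, hF⟩ := exists_primitive f
  obtain ⟨G, -, hG⟩ := exists_primitive g
  have h : HasEquivariantPrimitive N (f + g) (F + G) := by
    refine ⟨fun τ => by simpa using! (hF.1 τ).add (hG.1 τ), by simpa using! hF.2.1.add hG.2.1,
      fun γ => ?_, fun δ => ?_⟩
    · obtain ⟨a, ha⟩ := hF.2.2.1 γ
      obtain ⟨b, hb⟩ := hG.2.2.1 γ
      exact ⟨a + b, fun z => by simp [← ha z, ← hb z]; ring⟩
    · obtain ⟨a, ha⟩ := hF.2.2.2 δ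
      obtain ⟨b, hb⟩ := hG.2.2.2 δ
      exact ⟨a + b, ha.add hb⟩
  rw [periodMap_eq _ h, periodMap_eq _ hF, periodMap_eq _ hG]
  refine AddMonoidHom.ext fun γ => ?_
  show (F + G) _ - (F + G) _ = (F _ - F _) + (G _ - G _)
  simp; ring

lemma periodMap_smul (a : ℂ) : periodMap N (a • f) = a • periodMap N f := by
  obtain ⟨F, -, hF⟩ := exists_primitive f
  have h : HasEquivariantPrimitive N (a • f) (a • F) := by
    refine ⟨fun τ => by simpa using! (hF.1 τ).const_smul a, by simpa using! hF.2.1.const_smul a,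
      fun γ => ?_, fun δ => ?_⟩
    · obtain ⟨c, hc⟩ := hF.2.2.1 γ
      exact ⟨a * c, fun z => by simp [← hc z]; ring⟩
    · obtain ⟨c, hc⟩ := hF.2.2.2 δ
      exact ⟨a • c, hc.const_smul a⟩
  rw [periodMap_eq _ h, periodMap_eq _ hF]
  refine AddMonoidHom.ext fun γ => ?_
  show (a • F) _ - (a • F) _ = a • (F _ - F _)
  simp; ring

theorem existsPeriodMapLinear : ExistsPeriodMapLinear N :=
  ⟨{ toFun := periodMap N
     map_add' := fun f g => periodMap_add f g
     map_smul' := fun a f => periodMap_smul f a }, fun _ => rfl⟩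

end FLTAgent.Periods
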